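import Mathlib
import Fermat.Agent.LT.T7.H57.FoldSpec5

/-!
# Row LT, tower T7, leaf T7.14.6a-F.18 `MeasIotaC57` (helper607)

OFF-MAIN.  Mathlib + the spec closure of `FoldSpec5.lean` (helper57) only.

* `continuous_iota607` : `ι : 𝔸 × 𝔸ˣ × 𝔸ˣ → GL₂(𝔸)` is continuous (no hypothesis);
* `measIotaC607 : T1.LocCompC K → H57.MeasIotaC57 K` (VERBATIM).
-/

set_option autoImplicit false

open MeasureTheory Topology

noncomputable section

namespace Fermat.Agent.LT.T7.H607

open Fermat.Agent.LT.H556 Fermat.Agent.LT.H556.A0 Fermat.Agent.LT.T7 Fermat.Agent.LT.T7.Rigid
open Fermat.Agent.LT.T7.H57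

attribute [local instance] Fermat.Agent.LT.T5.instMeasurableSpaceG

variable (K : Type) [Field K] [NumberField K]

/-- A map into `2 × 2` matrices is continuous as soon as its four entries are. -/
theorem continuous_mat607 {X : Type*} [TopologicalSpace X] {R : Type*} [TopologicalSpace R]
    {a b c d : X → R} (ha : Continuous a) (hb : Continuous b) (hc : Continuous c)
    (hd : Continuous d) :
    Continuous fun x => (!![a x, b x; c x, d x] : Matrix (Fin 2) (Fin 2) R) := by
  refine continuous_matrix fun i j => ?_
  fin_cases i <;> fin_cases j <;> simpa using by assumption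

theorem continuous_unip607 : Continuous fun x : Adl K => Fermat.Agent.LT.T3.unip K x := by
  rw [Units.continuous_iff]
  refine ⟨?_, ?_⟩
  · exact continuous_mat607 continuous_const continuous_id continuous_const continuous_const
  · exact continuous_mat607 continuous_const continuous_neg continuous_const continuous_const

theorem continuous_dgA607 : Continuous fun y : (Adl K)ˣ => (dgA y : G K) := by
  rw [Units.continuous_iff]
  refine ⟨?_, ?_⟩
  · exact continuous_mat607 Units.continuous_val continuous_const continuous_const
      continuous_const
  · exact continuous_mat607 Units.continuous_coe_inv continuous_const continuous_const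
      continuous_const

theorem continuous_zA607 : Continuous fun z : (Adl K)ˣ => zA57 K z := by
  rw [Units.continuous_iff]
  refine ⟨?_, ?_⟩
  · exact continuous_mat607 Units.continuous_val continuous_const continuous_const
      Units.continuous_val
  · exact continuous_mat607 Units.continuous_coe_inv continuous_const continuous_const
      Units.continuous_coe_inv

/-- The coordinate map of the Borel subgroup is continuous. -/
theorem continuous_iota607 : Continuous fun p : PB57 K => iota57 K p := by
  unfold iota57
  exact (((continuous_unip607 K).comp continuous_fst).mul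
    ((continuous_dgA607 K).comp (continuous_fst.comp continuous_snd))).mul
    ((continuous_zA607 K).comp (continuous_snd.comp continuous_snd))

/-- The ideles are second countable as soon as the adeles are. -/
theorem secondCountable_units607 {M : Type*} [Monoid M] [TopologicalSpace M]
    [SecondCountableTopology M] : SecondCountableTopology Mˣ := by
  have : SecondCountableTopology Mᵐᵒᵖ :=
    (MulOpposite.opHomeomorph (M := M)).symm.secondCountableTopology
  exact Units.isInducing_embedProduct.secondCountableTopology

/-- **LEAF MEAS-IOTA** (T7.14.6a-F.18), VERBATIM. -/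
theorem measIotaC607 (h : Fermat.Agent.LT.T1.LocCompC K) : MeasIotaC57 K := by
  obtain ⟨⟨-, -, hsc⟩, -, -, -⟩ := h
  have : SecondCountableTopology (Adl K) := hsc
  have : SecondCountableTopology (Adl K)ˣ := secondCountable_units607
  unfold MeasIotaC57
  let : MeasurableSpace (Adl K) := borel (Adl K)
  let : MeasurableSpace (Adl K)ˣ := borel (Adl K)ˣ
  have : BorelSpace (Adl K) := ⟨rfl⟩
  have : BorelSpace (Adl K)ˣ := ⟨rfl⟩
  have : BorelSpace (G K) := ⟨rfl⟩
  refine ⟨fun k => ?_, ?_⟩
  · exact ((continuous_iota607 K).mul continuous_const).measurable
  · exact (continuous_iota607 K).inv.measurable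

end Fermat.Agent.LT.T7.H607

end
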