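import Mathlib
import Fermat.Agent.LT.T7.H973.PreBQSpec
import Fermat.Agent.LT.T7.H247.IwProjQ
import Fermat.Agent.LT.T7.H83.IwKit

/-!
# Row LT, tower T7, leaf T7.L2Q.1.H2a.B.0.D4 `PBQ973.SwapDnOpQC973` (helper607, registry row 3141)

OFF-MAIN.  Complete proofs, nothing assumed.  Own names only (suffix `607`).

    swapDnOpQC_of607 : PBQ973.SwapDnSumQC973 F → PBQ973.SwapDnInvQC973 F → PBQ973.SwapDnOpQC973 F

VERBATIM against `T7/H973/PreBQSpec.lean` (helper973@a2ff41d85, sha256 200eee4e).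

By the key identity downstairs the swapped function is `a ·` a finite linear combination of left
translates of `F₁ t []`, so `R(f°) χ = a ∑ₓ cₓ (R(F₁ t []) χ)(· x)` (left invariance of the Haar
measure) for every continuous `χ`.  The elements `x` are trivial at infinity and outside `T₀` and
Iwahori at `u`:

* they commute with the elements supported at infinity and at the places not dividing the level:
  continuity, bounds, left invariance, type, ray, cuspidality, invariance under the positive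
  scalars, Hecke eigenvalues and circle means pass from `R(F₁ t []) χ` (fields `dn1_wfn`,
  `dn1_class` of the first pair) to `R(f°) χ`;
* the right invariance of `R(f°) χ` under `U(𝔫)` and under the Iwahori subgroup at `u` is the left
  invariance of `f°` (leaf D3 `SwapDnInvQC973`);
* `iwOp`: `x = x' k`, `k` the local component of `x` at `u` (Iwahori), `x'` trivial at `u`; the
  coset operator preserves the Iwahori invariance (`H83.cosetOp_isIwInvAt83`) and commutes with
  the translation by `x'`; with `dn1_comm` of the first pair;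
* `shiftOp`: a scalar uniformiser is central.
-/

set_option autoImplicit false
set_option linter.unusedSectionVars false
set_option linter.unusedVariables false
set_option linter.style.haveILetI false

open AutomorphicForm IsDedekindDomain NumberField MeasureTheory
open scoped ComplexConjugate

noncomputable section

namespace Fermat.Agent.LT.T7.H607.SwQ

open Fermat.Agent.LT.H556 Fermat.Agent.LT.H556.A0 Fermat.Agent.LT.T7 Fermat.Agent.LT.T7.H305
  Fermat.Agent.LT.T7.L2Q Fermat.Agent.LT.T7.H893 Fermat.Agent.LT.T7.H962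
  Fermat.Agent.LT.T7.H732 Fermat.Agent.LT.T7.MQ298 Fermat.Agent.LT.T7.CQ801
  Fermat.Agent.LT.T7.PBQ973 Fermat.Agent.LT.H129

attribute [local instance] Fermat.Agent.LT.T5.instMeasurableSpaceG

section OneField

variable {K : Type} [Field K] [NumberField K]

/-- The combination of right translates `a ∑ₓ cₓ e(· x)`. -/
def trOp607 (a : ℂ) (X : Finset (G K)) (c : G K → ℂ) (e : G K → ℂ) : G K → ℂ :=
  fun g => a * ∑ x ∈ X, c x * e (g * x)

theorem trOp_apply607 (a : ℂ) (X : Finset (G K)) (c : G K → ℂ) (e : G K → ℂ) (g : G K) :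
    trOp607 a X c e g = a * ∑ x ∈ X, c x * e (g * x) := rfl

theorem borelSpace607 : BorelSpace (G K) := ⟨rfl⟩

/-- `R(a ∑ₓ cₓ F(x⁻¹ ·)) χ = a ∑ₓ cₓ (R(F) χ)(· x)`. -/
theorem rconv_comb607 {μ : Measure (G K)} (hμ : μ.IsHaarMeasure) {F χ : G K → ℂ}
    (hF : Continuous F) (hFs : HasCompactSupport F) (hχ : Continuous χ)
    (a : ℂ) (X : Finset (G K)) (c : G K → ℂ) (g : G K) :
    T5.Rconv μ (fun y => a * ∑ x ∈ X, c x * F (x⁻¹ * y)) χ g
      = trOp607 a X c (T5.Rconv μ F χ) g := by
  have : BorelSpace (G K) := borelSpace607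
  have := hμ
  show ∫ y, (a * ∑ x ∈ X, c x * F (x⁻¹ * y)) * χ (g * y) ∂μ
    = a * ∑ x ∈ X, c x * ∫ y, F y * χ (g * x * y) ∂μ
  have hint : ∀ x : G K, Integrable (fun y => F (x⁻¹ * y) * χ (g * y)) μ := by
    intro x
    refine Continuous.integrable_of_hasCompactSupport
      ((hF.comp (continuous_const_mul x⁻¹)).mul (hχ.comp (continuous_const_mul g))) ?_
    exact (hFs.comp_homeomorph (Homeomorph.mulLeft x⁻¹)).mul_right
  have e1 : (fun y => (a * ∑ x ∈ X, c x * F (x⁻¹ * y)) * χ (g * y))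
      = fun y => a * ∑ x ∈ X, c x * (F (x⁻¹ * y) * χ (g * y)) := by
    funext y
    rw [mul_assoc, Finset.sum_mul]
    congr 1
    refine Finset.sum_congr rfl fun x _ => ?_
    ring
  rw [e1, integral_const_mul, integral_finsetSum _ (fun x _ => (hint x).const_mul _)]
  congr 1
  refine Finset.sum_congr rfl fun x _ => ?_
  rw [integral_const_mul]
  congr 1
  have e2 : (fun y => F (x⁻¹ * y) * χ (g * y))
      = fun y => (fun z => F z * χ (g * x * z)) (x⁻¹ * y) := by
    funext y
    show F (x⁻¹ * y) * χ (g * y) = F (x⁻¹ * y) * χ (g * x * (x⁻¹ * y))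
    congr 2
    group
  rw [e2]
  exact integral_mul_left_eq_self (fun z => F z * χ (g * x * z)) x⁻¹

/-- Left invariance of `φ` under `k` gives right invariance of `R(φ) ψ` under `k`. -/
theorem rconv_mul_right607 {μ : Measure (G K)} (hμ : μ.IsHaarMeasure) {φ ψ : G K → ℂ} {k : G K}
    (hk : ∀ y, φ (k * y) = φ y) (g : G K) :
    T5.Rconv μ φ ψ (g * k) = T5.Rconv μ φ ψ g := by
  have : BorelSpace (G K) := borelSpace607
  have := hμ
  show ∫ y, φ y * ψ (g * k * y) ∂μ = ∫ y, φ y * ψ (g * y) ∂μ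
  have e : (fun y => φ y * ψ (g * k * y)) = fun y => (fun z => φ z * ψ (g * z)) (k * y) := by
    funext y
    show φ y * ψ (g * k * y) = φ (k * y) * ψ (g * (k * y))
    rw [hk, mul_assoc]
  rw [e]
  exact integral_mul_left_eq_self (fun z => φ z * ψ (g * z)) k

/-- `R(φ)` commutes with the right translation by a central element. -/
theorem rconv_central607 (μ : Measure (G K)) (φ ψ : G K → ℂ) {z : G K}
    (hz : ∀ h : G K, h * z = z * h) (x : G K) :
    T5.Rconv μ φ (fun y => ψ (y * z)) x = T5.Rconv μ φ ψ (x * z) := by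
  show ∫ y, φ y * ψ (x * y * z) ∂μ = ∫ y, φ y * ψ (x * z * y) ∂μ
  congr 1
  funext y
  rw [mul_assoc x y z, hz y, ← mul_assoc]


/-! ## The combination of right translates -/

section TrOp

variable {a : ℂ} {X : Finset (G K)} {c : G K → ℂ}

theorem continuous_trOp607 {e : G K → ℂ} (he : Continuous e) :
    Continuous (trOp607 a X c e) := by
  unfold trOp607
  refine continuous_const.mul (continuous_finsetSum _ fun x _ => ?_)
  exact continuous_const.mul (he.comp (continuous_mul_const x))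

theorem bdd_trOp607 {e : G K → ℂ} (he : ∃ C : ℝ, ∀ g : G K, ‖e g‖ ≤ C) :
    ∃ C : ℝ, ∀ g : G K, ‖trOp607 a X c e g‖ ≤ C := by
  obtain ⟨C, hC⟩ := he
  refine ⟨‖a‖ * ∑ x ∈ X, ‖c x‖ * C, fun g => ?_⟩
  rw [trOp_apply607, norm_mul]
  refine mul_le_mul_of_nonneg_left ?_ (norm_nonneg _)
  refine (norm_sum_le _ _).trans (Finset.sum_le_sum fun x _ => ?_)
  rw [norm_mul]
  exact mul_le_mul_of_nonneg_left (hC _) (norm_nonneg _)

/-- An element commuting with `X` which multiplies `e` by `m` multiplies the combination by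
`m`. -/
theorem trOp_comm_mul607 {e : G K → ℂ} {z : G K} {m : ℂ} (hz : ∀ x ∈ X, x * z = z * x)
    (he : ∀ g, e (g * z) = m * e g) (g : G K) :
    trOp607 a X c e (g * z) = m * trOp607 a X c e g := by
  rw [trOp_apply607, trOp_apply607]
  have e1 : ∀ x ∈ X, c x * e (g * z * x) = m * (c x * e (g * x)) := by
    intro x hx
    rw [mul_assoc g z x, ← hz x hx, ← mul_assoc, he]
    ring
  rw [Finset.sum_congr rfl e1, ← Finset.mul_sum]
  ring

theorem trOp_comm607 {e : G K → ℂ} {z : G K} (hz : ∀ x ∈ X, x * z = z * x)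
    (he : ∀ g, e (g * z) = e g) (g : G K) :
    trOp607 a X c e (g * z) = trOp607 a X c e g := by
  have := trOp_comm_mul607 (a := a) (c := c) (e := e) (m := 1) hz
    (fun g => by rw [he, one_mul]) g
  rw [this, one_mul]

/-- The combination of a cusp function is a cusp function, as soon as it is right invariant under
the level group. -/
theorem isCuspFn_trOp607 (hT : Fermat.Agent.LT.T1.T1Out K) {𝔫 : Ideal (𝓞 K)} {τ : G K → ℂ}
    {r : G K} (hr : T5.IsRayGen r) {e : G K → ℂ} (he : T5.IsCuspFn 𝔫 τ r e)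
    (hX : ∀ x ∈ X, ∀ w : InfinitePlace K, TrivAtInf w x)
    (hlev : ∀ k : G K, InLevelGroup 𝔫 k → ∀ g : G K,
      trOp607 a X c e (g * k) = trOp607 a X c e g) :
    T5.IsCuspFn 𝔫 τ r (trOp607 a X c e) := by
  have hcomm : ∀ z : G K, (∀ v : HeightOneSpectrum (𝓞 K), TrivAtFin v z) →
      ∀ x ∈ X, x * z = z * x := fun z hz x hx =>
    Fermat.Agent.LT.T7.H949.commute_of_triv949 (hX x hx) hz
  refine ⟨continuous_trOp607 he.cont, bdd_trOp607 he.bdd, ⟨?_, hlev, ?_, ?_⟩, ?_⟩
  · intro γ g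
    rw [trOp_apply607, trOp_apply607]
    congr 1
    refine Finset.sum_congr rfl fun x _ => ?_
    rw [mul_assoc, he.aut.left_inv]
  · intro w k hk g
    exact trOp_comm_mul607 (hcomm k hk.1.2) (he.aut.arch_compact w k hk) g
  · intro g
    exact trOp_comm607 (hcomm r hr.1) he.aut.ray g
  · intro μ' hμ' D hD n hn g
    have hint := Fermat.Agent.LT.T7.H949.integrableOn_unip949 hT he.cont he.bdd μ' hμ' D hD n hn
    have e1 : (fun x => trOp607 a X c e (n x * g))
        = fun x => a * ∑ q ∈ X, c q * e (n x * (g * q)) := by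
      funext x
      rw [trOp_apply607]
      congr 1
      refine Finset.sum_congr rfl fun q _ => ?_
      rw [mul_assoc]
    rw [e1, integral_const_mul, integral_finsetSum _ (fun q _ => (hint _).const_mul _)]
    rw [Finset.sum_eq_zero (fun q _ => by
      rw [integral_const_mul, he.cuspidal μ' hμ' D hD n hn _, mul_zero]), mul_zero]

/-- The combination preserves the Hecke eigenfunctions at the places where `X` is trivial. -/
theorem hecke_trOp607 {e : G K → ℂ} {v : HeightOneSpectrum (𝓞 K)} {α β : ℂ}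
    (hX : ∀ x ∈ X, TrivAtFin v x) (h : IsHeckeEigenAt e v α β) :
    IsHeckeEigenAt (trOp607 a X c e) v α β := by
  refine ⟨fun H hH g => ?_, fun z hz g => ?_⟩
  · have e1 : ∀ h' ∈ H, trOp607 a X c e (g * h') = a * ∑ x ∈ X, c x * e (g * x * h') := by
      intro h' hh'
      rw [trOp_apply607]
      congr 1
      refine Finset.sum_congr rfl fun x hx => ?_
      rw [mul_assoc g h' x,
        Fermat.Agent.LT.T7.H83.mul_comm_of_local83 v (hH.2.1 h' hh').1 (hX x hx), ← mul_assoc]
    rw [Finset.sum_congr rfl e1, ← Finset.mul_sum, Finset.sum_comm]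
    have e2 : ∀ x ∈ X, ∑ h' ∈ H, c x * e (g * x * h')
        = ((Real.sqrt (Ideal.absNorm v.asIdeal : ℝ) : ℝ) : ℂ) * α * (c x * e (g * x)) := by
      intro x _
      rw [← Finset.mul_sum, h.1 H hH (g * x)]
      ring
    rw [Finset.sum_congr rfl e2, ← Finset.mul_sum, trOp_apply607]
    ring
  · exact trOp_comm_mul607 (fun x _ => Fermat.Agent.LT.T7.H247.scalarUnif_comm247 hz x)
      (h.2 z hz) g

/-- The combination preserves the eigenfunctions of an integral mean along a continuous family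
of elements which are trivial at the finite places. -/
theorem mean_trOp607 {e : G K → ℂ} (hc : Continuous e) {Y : ℝ → G K} (hYc : Continuous Y)
    (hYf : ∀ θ (v : HeightOneSpectrum (𝓞 K)), TrivAtFin v (Y θ))
    (hX : ∀ x ∈ X, ∀ w : InfinitePlace K, TrivAtInf w x)
    {κ : ℝ → ℂ} (hκ : Continuous κ) (p q : ℝ) (m : ℂ)
    (h : ∀ g : G K, (∫ θ in p..q, κ θ * e (g * Y θ)) = m * e g) (g : G K) :
    (∫ θ in p..q, κ θ * trOp607 a X c e (g * Y θ)) = m * trOp607 a X c e g := by
  have e1 : (fun θ => κ θ * trOp607 a X c e (g * Y θ))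
      = fun θ => a * ∑ x ∈ X, c x * (κ θ * e (g * x * Y θ)) := by
    funext θ
    rw [trOp_apply607]
    have hq : ∀ x ∈ X, c x * e (g * Y θ * x) = c x * e (g * x * Y θ) := by
      intro x hx
      rw [mul_assoc g, mul_assoc g,
        ← Fermat.Agent.LT.T7.H949.commute_of_triv949 (hX x hx) (hYf θ)]
    rw [Finset.sum_congr rfl hq, Finset.mul_sum, Finset.mul_sum, Finset.mul_sum]
    refine Finset.sum_congr rfl fun x _ => ?_
    ring
  have hint : ∀ x : G K,
      IntervalIntegrable (fun θ => c x * (κ θ * e (g * x * Y θ))) volume p q := fun x =>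
    (continuous_const.mul (hκ.mul (hc.comp (continuous_const.mul hYc)))).intervalIntegrable p q
  rw [e1, intervalIntegral.integral_const_mul,
    intervalIntegral.integral_finsetSum (fun x _ => hint x)]
  have e2 : ∀ x ∈ X, (∫ θ in p..q, c x * (κ θ * e (g * x * Y θ))) = m * (c x * e (g * x)) := by
    intro x _
    rw [intervalIntegral.integral_const_mul, h (g * x)]
    ring
  rw [Finset.sum_congr rfl e2, ← Finset.mul_sum, trOp_apply607]
  ring

/-- The coset operator at `u` commutes with the combination on the Iwahori-invariant functions,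
if the elements of `X` are Iwahori at `u`. -/
theorem cosetOp_trOp607 {u : HeightOneSpectrum (𝓞 K)} {H : Finset (G K)}
    (hH : IsIwCosetSystem u H) {e : G K → ℂ} (he : Fermat.Agent.LT.T7.H83.IsIwInvAt u e)
    (hX : ∀ x ∈ X, T5.InIwahori u x) (g : G K) :
    ∑ h ∈ H, trOp607 a X c e (g * h) = trOp607 a X c (fun y => ∑ h ∈ H, e (y * h)) g := by
  have key : ∀ x ∈ X, ∑ h ∈ H, e (g * h * x) = ∑ h ∈ H, e (g * x * h) := by
    intro x hx
    set k : G K := locFin129 u (finCompHom129 u x) with hk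
    have hkloc : IsLocalAtFin u k := isLocalAtFin_locFin129 u _
    have hkfin : finCompHom129 u k = finCompHom129 u x := finCompHom129_locFin129 u _
    have hkI : T5.InIwahori u k := by
      refine Fermat.Agent.LT.T7.H83.inIwahori_congr83 u ?_ (hX x hx)
      rw [← coe_finCompHom129, ← coe_finCompHom129, hkfin]
    have hx' : TrivAtFin u (x * k⁻¹) := by
      rw [trivAtFin_iff129, map_mul, map_inv, hkfin, mul_inv_cancel]
    have hxk : x = x * k⁻¹ * k := by group
    have hco := Fermat.Agent.LT.T7.H83.cosetOp_isIwInvAt83 u hH he k hkloc hkI (g * (x * k⁻¹))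
    have h1 : ∑ h ∈ H, e (g * h * x) = ∑ h ∈ H, e (g * (x * k⁻¹) * h) := by
      refine Finset.sum_congr rfl fun h hh => ?_
      have e1 : g * h * x = g * (x * k⁻¹) * h * k := by
        rw [mul_assoc g (x * k⁻¹) h,
          ← Fermat.Agent.LT.T7.H83.mul_comm_of_local83 u (hH.2.1 h hh).1 hx']
        group
      rw [e1, he k hkloc hkI]
    have h2 : ∑ h ∈ H, e (g * x * h) = ∑ h ∈ H, e (g * (x * k⁻¹) * k * h) := by
      refine Finset.sum_congr rfl fun h _ => ?_
      congr 2
      group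
    rw [h1, h2]
    exact hco.symm
  have e1 : ∀ h ∈ H, trOp607 a X c e (g * h) = a * ∑ x ∈ X, c x * e (g * h * x) :=
    fun h _ => rfl
  rw [Finset.sum_congr rfl e1, ← Finset.mul_sum, Finset.sum_comm, trOp_apply607]
  congr 1
  refine Finset.sum_congr rfl fun x hx => ?_
  rw [← Finset.mul_sum, key x hx]

end TrOp

end OneField

/-! ## The circle means over `ℚ` -/

section Mean

open Fermat.Agent.LT.T7.H247 Fermat.Agent.LT.H670

theorem meanEig_trOp607 {a : ℂ} {X : Finset (G ℚ)} {c : G ℚ → ℂ} (t : QWt) {e : G ℚ → ℂ}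
    (hc : Continuous e) (hX : ∀ x ∈ X, ∀ w : InfinitePlace ℚ, TrivAtInf w x)
    {w : InfinitePlace ℚ} {m : ℝ → ℂ} (h : t.MeanEig e w m) :
    t.MeanEig (trOp607 a X c e) w m := by
  cases t with
  | w0 =>
    have hm0 : MeanEigR0 e w m := h
    show MeanEigR0 _ w m
    intro s hs Y hY g
    have hYc : Continuous Y :=
      continuous_family247 w (fun θ => rotY θ) continuous_rotY247 det_rotY247 s Y hY
    have h1 := mean_trOp607 (a := a) (X := X) (c := c) hc hYc (fun θ v => (hY θ).1.2 v) hX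
      (κ := fun _ => (1 : ℂ)) continuous_const 0 (2 * Real.pi) (m s) (fun g => by
        have := hm0 s hs Y hY g
        simpa only [one_mul] using this) g
    simpa only [one_mul] using h1
  | w1 =>
    have hm1 : MeanEigR1 e w m := h
    show MeanEigR1 _ w m
    intro s hs Y hY g
    have hYc : Continuous Y :=
      continuous_family247 w (fun θ => QOut.rotC θ) continuous_rotC247 det_rotC247 s Y hY
    exact mean_trOp607 (a := a) (X := X) (c := c) hc hYc (fun θ v => (hY θ).1.2 v) hX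
      (κ := fun θ : ℝ => Complex.exp (-(Complex.I * ((θ : ℝ) : ℂ)))) (by fun_prop)
      0 (2 * Real.pi) (m s) (fun g => hm1 s hs Y hY g) g

end Mean

/-! ## The leaf -/

section Leaf

variable (F : Type) [Field F] [NumberField F]

/-- **Leaf PBQ.0.D4 `SwapDnOpQC973`** from the key identity downstairs and the invariance of the
swapped function (leaf D3). -/
theorem swapDnOpQC_of607 (hS : PBQ973.SwapDnSumQC973 F) (hI : PBQ973.SwapDnInvQC973 F) :
    PBQ973.SwapDnOpQC973 F := by
  intro h3 hIQ Φe B hB hram g hg 𝔫 h𝔫 μr μc hμr hμc T₀ n n₀ m hexp c hc c₁ Φ₁ F₁ hA fb hfb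
    Ω iT iC iT2 iSC iM iB ν iF T T' φ₀ Φ f₀ F0 F1 hdat a t
  obtain ⟨X, cX, hX, hid⟩ := hS h3 hIQ Φe B hB hram g hg 𝔫 h𝔫 μr μc hμr hμc T₀ n n₀ m hexp
    c hc c₁ Φ₁ F₁ hA fb hfb Ω iT iC iT2 iSC iM iB ν iF T T' φ₀ Φ f₀ F0 F1 hdat
  have hInv := hI h3 hIQ Φe B hB hram g hg 𝔫 h𝔫 μr μc hμr hμc T₀ n n₀ m hexp
    c hc c₁ Φ₁ F₁ hA fb hfb Ω iT iC iT2 iSC iM iB ν iF T T' φ₀ Φ f₀ F0 F1 hdat a t
  have hμ : (toBase962_732 B).R.μ.IsHaarMeasure := hB.frame.frame.haar
  have hr : T5.IsRayGen (toBase962_732 B).R.r := hB.frame.ray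
  have hT : Fermat.Agent.LT.T1.T1Out ℚ := Fermat.Agent.LT.T1.t1Out ℚ
  have hFt : T5.IsTestFn 𝔫 t.type (F₁ t []) := hA.dn1_test t [] (by simp)
  -- the data of the type `t`
  have hcont : Continuous (fun p : Ω × G ℚ =>
      pureQ298 (T p.1) (f₀ p.1) (archQ973 F0 F1 t p.1) p.2) := by
    cases t with
    | w0 =>
      have := hdat.2.2.2.2.2.1
      show Continuous (fun p : Ω × G ℚ => pureQ298 (T p.1) (f₀ p.1) (F0 p.1) p.2)
      simpa only [one_mul] using this
    | w1 =>
      have := hdat.2.2.2.2.2.2.1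
      show Continuous (fun p : Ω × G ℚ => pureQ298 (T p.1) (f₀ p.1) (F1 p.1) p.2)
      simpa only [one_mul] using this
  have hF₁ : ∀ h : G ℚ, F₁ t [] h
      = ∫ ω, pureQ298 (T ω) (f₀ ω) (archQ973 F0 F1 t ω) h ∂ν := by
    intro h
    cases t with
    | w0 =>
      have := hdat.2.2.2.2.2.2.2.2.2.2.2.1 h
      show F₁ QWt.w0 [] h = ∫ ω, pureQ298 (T ω) (f₀ ω) (F0 ω) h ∂ν
      simpa only [one_mul] using this
    | w1 =>
      have := hdat.2.2.2.2.2.2.2.2.2.2.2.2 h
      show F₁ QWt.w1 [] h = ∫ ω, pureQ298 (T ω) (f₀ ω) (F1 ω) h ∂ν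
      simpa only [one_mul] using this
  -- the swapped function is a combination of left translates of `F₁ t []`
  have e_f : swapDnFnQ973 (toBase962_732 B) T₀ fb a ν T f₀ (archQ973 F0 F1 t)
      = fun y => a * ∑ x ∈ X, cX x * F₁ t [] (x⁻¹ * y) := by
    funext y
    show (∫ ω, a * pureQ298 (T ω) (swDnQ973 (toBase962_732 B) T₀ fb (f₀ ω))
      (archQ973 F0 F1 t ω) y ∂ν) = _
    have e1 : (fun ω => a * pureQ298 (T ω) (swDnQ973 (toBase962_732 B) T₀ fb (f₀ ω))
          (archQ973 F0 F1 t ω) y)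
        = fun ω => a * ∑ x ∈ X, cX x * pureQ298 (T ω) (f₀ ω) (archQ973 F0 F1 t ω) (x⁻¹ * y) := by
      funext ω
      rw [hid t ω y]
    rw [e1, integral_const_mul, integral_finsetSum]
    · congr 1
      refine Finset.sum_congr rfl fun x _ => ?_
      rw [integral_const_mul, hF₁]
    · intro x _
      have hc' : Continuous (fun ω => pureQ298 (T ω) (f₀ ω) (archQ973 F0 F1 t ω) (x⁻¹ * y)) :=
        hcont.comp (Continuous.prodMk continuous_id continuous_const)
      exact (hc'.integrable_of_hasCompactSupport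
        (HasCompactSupport.of_compactSpace _)).const_mul _
  have hR : ∀ χ : G ℚ → ℂ, Continuous χ → ∀ y : G ℚ,
      T5.Rconv (toBase962_732 B).R.μ (swapDnFnQ973 (toBase962_732 B) T₀ fb a ν T f₀ (archQ973 F0 F1 t)) χ y
        = trOp607 a X cX (T5.Rconv (toBase962_732 B).R.μ (F₁ t []) χ) y := by
    intro χ hχ y
    rw [e_f]
    exact rconv_comb607 hμ hFt.cont hFt.supp hχ a X cX y
  have hXinf : ∀ x ∈ X, ∀ w : InfinitePlace ℚ, TrivAtInf w x := fun x hx => (hX x hx).1
  have hXiw : ∀ x ∈ X, T5.InIwahori (toBase962_732 B).u x := fun x hx => (hX x hx).2.2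
  have hlevL : ∀ k : G ℚ, InLevelGroup 𝔫 k → ∀ y : G ℚ,
      swapDnFnQ973 (toBase962_732 B) T₀ fb a ν T f₀ (archQ973 F0 F1 t) (k * y)
        = swapDnFnQ973 (toBase962_732 B) T₀ fb a ν T f₀ (archQ973 F0 F1 t) y :=
    fun k hk y => (hInv.1 k hk y).1
  -- the invariant cusp functions
  have wfn : ∀ ψ : G ℚ → ℂ, IsWFnQ t 𝔫 (toBase962_732 B).R.r (toBase962_732 B).u ψ →
      IsWFnQ t 𝔫 (toBase962_732 B).R.r (toBase962_732 B).u
        (T5.Rconv (toBase962_732 B).R.μ (swapDnFnQ973 (toBase962_732 B) T₀ fb a ν T f₀ (archQ973 F0 F1 t))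
          ψ) := by
    intro ψ hψ
    have he := hA.dn1_wfn t ψ hψ
    have heq : T5.Rconv (toBase962_732 B).R.μ
        (swapDnFnQ973 (toBase962_732 B) T₀ fb a ν T f₀ (archQ973 F0 F1 t)) ψ
        = trOp607 a X cX (T5.Rconv (toBase962_732 B).R.μ (F₁ t []) ψ) := funext (hR ψ hψ.cusp.cont)
    refine ⟨?_, ?_, ?_⟩
    · rw [heq]
      refine isCuspFn_trOp607 hT hr he.cusp hXinf (fun k hk y => ?_)
      rw [← heq]
      exact rconv_mul_right607 hμ (hlevL k hk) y
    · intro w z hz y
      rw [heq]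
      exact trOp_comm607
        (fun x hx => Fermat.Agent.LT.T7.H949.commute_of_triv949 (hXinf x hx) hz.1.2)
        (he.arch_scalar w z hz) y
    · intro h h1 h2 h3 y
      exact rconv_mul_right607 hμ (fun y' => (hInv.2 h h1 h2 h3 y').1) y
  refine ⟨wfn, ?_, ?_⟩
  · -- the eigenfunctions
    intro ψ c' hψ
    have he := hA.dn1_class t ψ c' hψ
    have heq : T5.Rconv (toBase962_732 B).R.μ
        (swapDnFnQ973 (toBase962_732 B) T₀ fb a ν T f₀ (archQ973 F0 F1 t)) ψ
        = trOp607 a X cX (T5.Rconv (toBase962_732 B).R.μ (F₁ t []) ψ) := funext (hR ψ hψ.inv.cusp.cont)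
    refine ⟨wfn ψ hψ.inv, fun v hv => ?_, fun w => ?_⟩
    · rw [heq]
      exact hecke_trOp607
        (fun x hx => (hX x hx).2.1 v (fun hvT => hv ((hexp.div v).1 hvT))) (he.hecke v hv)
    · rw [heq]
      exact meanEig_trOp607 t he.inv.cusp.cont hXinf (he.mean w)
  · -- the commutations
    intro ψ hψ H z hH hz
    have he := hA.dn1_wfn t ψ hψ
    have hcomm := hA.dn1_comm t ψ hψ H z hH hz
    have heq : T5.Rconv (toBase962_732 B).R.μ
        (swapDnFnQ973 (toBase962_732 B) T₀ fb a ν T f₀ (archQ973 F0 F1 t)) ψ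
        = trOp607 a X cX (T5.Rconv (toBase962_732 B).R.μ (F₁ t []) ψ) := funext (hR ψ hψ.cusp.cont)
    refine ⟨fun x => ?_, fun k x => ?_⟩
    · have hciw : Continuous (iwOp (toBase962_732 B).u H ψ) := by
        show Continuous fun y =>
          ((Real.sqrt (Ideal.absNorm (toBase962_732 B).u.asIdeal : ℝ) : ℝ) : ℂ)⁻¹ * ∑ h ∈ H, ψ (y * h)
        exact continuous_const.mul (continuous_finsetSum _ fun h _ =>
          hψ.cusp.cont.comp (continuous_mul_const h))
      have heI : Fermat.Agent.LT.T7.H83.IsIwInvAt (toBase962_732 B).u (T5.Rconv (toBase962_732 B).R.μ (F₁ t []) ψ) :=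
        Fermat.Agent.LT.T7.H83.isIwInvAt_of_isIwInv83 (o := fun _ => (toBase962_732 B).u) he.iw
          (j := 0) Nat.zero_lt_one
      rw [hR _ hciw x, heq, trOp_apply607]
      have e1 : ∀ x' ∈ X, cX x' * T5.Rconv (toBase962_732 B).R.μ (F₁ t []) (iwOp (toBase962_732 B).u H ψ) (x * x')
          = ((Real.sqrt (Ideal.absNorm (toBase962_732 B).u.asIdeal : ℝ) : ℝ) : ℂ)⁻¹
            * (cX x' * ∑ h ∈ H, T5.Rconv (toBase962_732 B).R.μ (F₁ t []) ψ (x * x' * h)) := by
        intro x' _
        rw [hcomm.1 (x * x')]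
        show cX x' * (((Real.sqrt (Ideal.absNorm (toBase962_732 B).u.asIdeal : ℝ) : ℝ) : ℂ)⁻¹
          * ∑ h ∈ H, T5.Rconv (toBase962_732 B).R.μ (F₁ t []) ψ (x * x' * h)) = _
        ring
      rw [Finset.sum_congr rfl e1, ← Finset.mul_sum]
      show _ = ((Real.sqrt (Ideal.absNorm (toBase962_732 B).u.asIdeal : ℝ) : ℝ) : ℂ)⁻¹
        * ∑ h ∈ H, trOp607 a X cX (T5.Rconv (toBase962_732 B).R.μ (F₁ t []) ψ) (x * h)
      rw [cosetOp_trOp607 hH heI hXiw x, trOp_apply607]
      ring
    · have hzc : ∀ h : G ℚ, h * z ^ k = z ^ k * h := fun h =>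
        ((show Commute h z from Fermat.Agent.LT.T7.H247.scalarUnif_comm247 hz h).zpow_right
          k).eq
      exact rconv_central607 (toBase962_732 B).R.μ _ ψ hzc x

example (hS : PBQ973.SwapDnSumQC973 F) (hI : PBQ973.SwapDnInvQC973 F) :
    PBQ973.SwapDnOpQC973 F := swapDnOpQC_of607 F hS hI

end Leaf

end Fermat.Agent.LT.T7.H607.SwQ

end
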